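import Fermat.Agent.ExceptionalValues.Minimal

/-!
# Integer points, zeros, polynomials and an example

An E-function with a linear differential equation which is no polynomial takes transcendental
values at almost all integers and has few algebraic zeros; for `(z - 1) exp z` the exceptional set
is `{0, 1}`.
-/

set_option autoImplicit false

noncomputable section

namespace FA.ExceptionalValues

open Finset
open scoped Polynomial
open FA.SiegelShidlovskii (IsEFunction cval)

variable {f : PowerSeries ℚ}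

section Transcendental

variable (hE : IsEFunction f) {N : ℕ} {e : ℕ → ℚ[X]} (he : ∃ j ≤ N, e j ≠ 0)
  (hf : ∑ j ∈ range (N + 1), (e j : PowerSeries ℚ) * (PowerSeries.derivative ℚ)^[j] f = 0)
  (hpol : ∀ p : ℚ[X], f ≠ (p : PowerSeries ℚ))

include hE he hf hpol

theorem integer_values_finite :
    {n : ℤ | ¬Transcendental ℚ (cval f (n : ℂ))}.Finite := by
  refine ((exceptional_finite hE he hf hpol).preimage Int.cast_injective.injOn).subset
    fun n hn => ?_
  refine ⟨?_, not_not.1 hn⟩
  simpa using isAlgebraic_algebraMap (R := ℚ) (A := ℂ) (n : ℚ)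

theorem irrational_values_finite :
    {n : ℤ | ¬Irrational (FA.SiegelShidlovskii.val f (n : ℝ))}.Finite := by
  refine (integer_values_finite hE he hf hpol).subset fun n hn htr => hn ?_
  rintro ⟨r, hr⟩
  refine htr ?_
  rw [show ((n : ℤ) : ℂ) = ((n : ℝ) : ℂ) by simp, FA.SiegelShidlovskii.cval_ofReal, ← hr]
  simpa using isAlgebraic_algebraMap (R := ℚ) (A := ℂ) r

theorem algebraic_zeros_finite : {z : ℂ | IsAlgebraic ℚ z ∧ cval f z = 0}.Finite :=
  (exceptional_finite hE he hf hpol).subset fun _ hz => ⟨hz.1, hz.2 ▸ isAlgebraic_zero⟩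

theorem transcendental_zeros_infinite (hinf : {z : ℂ | cval f z = 0}.Infinite) :
    {z : ℂ | Transcendental ℚ z ∧ cval f z = 0}.Infinite :=
  (hinf.sdiff (algebraic_zeros_finite hE he hf hpol)).mono fun _ hz =>
    ⟨fun h => hz.2 ⟨h, hz.1⟩, hz.1⟩

end Transcendental

theorem polynomial_iff (hE : IsEFunction f) {N : ℕ} {e : ℕ → ℚ[X]} (he : ∃ j ≤ N, e j ≠ 0)
    (hf : ∑ j ∈ range (N + 1), (e j : PowerSeries ℚ) * (PowerSeries.derivative ℚ)^[j] f = 0) :
    (∃ p : ℚ[X], f = (p : PowerSeries ℚ)) ↔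
      {α : ℂ | IsAlgebraic ℚ α ∧ IsAlgebraic ℚ (cval f α)}.Infinite := by
  constructor
  · rintro ⟨p, rfl⟩
    refine (Set.infinite_range_of_injective (Nat.cast_injective (R := ℂ))).mono ?_
    rintro _ ⟨n, rfl⟩
    refine ⟨isAlgebraic_natCast n, ?_⟩
    rw [cval_coe, show ((n : ℂ)) = algebraMap ℚ ℂ n by simp, Polynomial.aeval_algebraMap_apply]
    exact isAlgebraic_algebraMap _
  · intro h
    by_contra hp
    push Not at hp
    exact h (exceptional_finite hE he hf hp)

/-- The exceptional set of `(z - 1) exp z`. -/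
theorem exceptional_example :
    {α : ℂ | IsAlgebraic ℚ α ∧ IsAlgebraic ℚ ((α - 1) * Complex.exp α)} = {0, 1} := by
  ext α
  constructor
  · rintro ⟨hα, h⟩
    by_contra hne
    simp only [Set.mem_insert_iff, Set.mem_singleton_iff, not_or] at hne
    refine FA.BeukersTheorem.transcendental_exp hα hne.1 ?_
    have h1 : Complex.exp α = (α - 1)⁻¹ * ((α - 1) * Complex.exp α) := by
      rw [← mul_assoc, inv_mul_cancel₀ (sub_ne_zero.2 hne.2), one_mul]
    rw [h1]
    exact (hα.sub isAlgebraic_one).inv.mul h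
  · rintro (rfl | rfl)
    · exact ⟨isAlgebraic_zero, by simpa using isAlgebraic_one.neg⟩
    · exact ⟨isAlgebraic_one, by simpa using isAlgebraic_zero⟩

theorem example_hypotheses :
    IsEFunction (((Polynomial.X - 1 : ℚ[X]) : PowerSeries ℚ) * PowerSeries.exp ℚ) ∧
    (∀ p : ℚ[X], ((Polynomial.X - 1 : ℚ[X]) : PowerSeries ℚ) * PowerSeries.exp ℚ ≠ p) ∧
    ((-Polynomial.X : ℚ[X]) : PowerSeries ℚ) *
        (((Polynomial.X - 1 : ℚ[X]) : PowerSeries ℚ) * PowerSeries.exp ℚ) +
      ((Polynomial.X - 1 : ℚ[X]) : PowerSeries ℚ) * PowerSeries.derivative ℚ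
        (((Polynomial.X - 1 : ℚ[X]) : PowerSeries ℚ) * PowerSeries.exp ℚ) = 0 ∧
    ∀ z : ℂ, cval (((Polynomial.X - 1 : ℚ[X]) : PowerSeries ℚ) * PowerSeries.exp ℚ) z =
      (z - 1) * Complex.exp z := by
  refine ⟨(FA.SiegelShidlovskii.isEFunction_coe _).mul FA.SiegelShidlovskii.isEFunction_exp,
    fun p hp => ?_, ?_, fun z => ?_⟩
  · obtain ⟨-, h⟩ := FA.AndreEFunctions.exp_independent (A := -p) (B := Polynomial.X - 1)
      (by rw [Polynomial.coe_neg, hp, neg_add_cancel])
    exact Polynomial.X_sub_C_ne_zero (1 : ℚ) (by simpa using h)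
  · simp only [Derivation.leibniz, smul_eq_mul, PowerSeries.derivative_exp,
      map_sub, PowerSeries.derivative_X, Derivation.map_one_eq_zero, Polynomial.coe_neg,
      Polynomial.coe_sub, Polynomial.coe_X, Polynomial.coe_one, sub_zero]
    ring
  · rw [cval_coe_mul _ FA.SiegelShidlovskii.isEFunction_exp, FA.SiegelShidlovskii.cval_exp]
    simp

end FA.ExceptionalValues
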