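import Fermat.Agent.BeukersTheorem.Consequences

/-!
# Exceptional values of E-functions

An E-function with a linear differential equation satisfies an inhomogeneous one of least order
`m`; if it is not a polynomial, `m ≥ 1`, and at an algebraic point where the leading coefficient is
nonzero `1` and the values of the first `m` derivatives are independent over the algebraic numbers.
-/

set_option autoImplicit false

noncomputable section

namespace FA.ExceptionalValues

open Finset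
open scoped Polynomial
open FA.SiegelShidlovskii (IsEFunction cval)

theorem cval_coe (p : ℚ[X]) (z : ℂ) : cval (p : PowerSeries ℚ) z = Polynomial.aeval z p := by
  rw [cval, tsum_eq_sum (s := range (p.natDegree + 1)) fun k hk => ?_,
    Polynomial.aeval_eq_sum_range]
  · refine Finset.sum_congr rfl fun k _ => ?_
    rw [Polynomial.coeff_coe, Rat.smul_def]
  · rw [Polynomial.coeff_coe, Polynomial.coeff_eq_zero_of_natDegree_lt
      (by rw [mem_range] at hk; omega), Rat.cast_zero, zero_mul]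

theorem cval_coe_mul (p : ℚ[X]) {g : PowerSeries ℚ} (hg : IsEFunction g) (z : ℂ) :
    cval ((p : PowerSeries ℚ) * g) z = Polynomial.aeval z p * cval g z := by
  rw [FA.SiegelShidlovskii.cval_mul (FA.SiegelShidlovskii.isEFunction_coe p) hg, cval_coe]

theorem exists_coprime_factor (T q : ℚ[X]) :
    ∃ T₁ q₁ d : ℚ[X], IsCoprime T₁ q₁ ∧ T = d * T₁ ∧ q = d * q₁ := by
  rcases eq_or_ne T 0 with rfl | hT
  · exact ⟨0, 1, q, isCoprime_one_right, by simp, by simp⟩
  obtain ⟨T₁, q₁, h1, h2, h3⟩ := extract_gcd T q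
  exact ⟨T₁, q₁, _, (gcd_isUnit_iff _ _).1 h3, h1, h2⟩

/-- **A rational E-function is a polynomial.** -/
theorem exists_coe_of_mul_eq {f : PowerSeries ℚ} (hE : IsEFunction f) {T q : ℚ[X]} (hT : T ≠ 0)
    (h : (T : PowerSeries ℚ) * f = (q : PowerSeries ℚ)) :
    ∃ p : ℚ[X], f = (p : PowerSeries ℚ) := by
  obtain ⟨T₁, q₁, d, hco, hdT, hdq⟩ := exists_coprime_factor T q
  have hd : d ≠ 0 := fun h0 => hT (by rw [hdT, h0, zero_mul])
  have h1 : (T₁ : PowerSeries ℚ) * f = (q₁ : PowerSeries ℚ) := by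
    refine mul_left_cancel₀ (fun h0 => hd (Polynomial.coe_eq_zero_iff.1 h0)) ?_
    rw [← mul_assoc, ← Polynomial.coe_mul, ← Polynomial.coe_mul, ← hdT, ← hdq]
    exact h
  rcases Nat.eq_zero_or_pos T₁.natDegree with h0 | h0
  · obtain ⟨c, hc⟩ := Polynomial.natDegree_eq_zero.1 h0
    have hc0 : c ≠ 0 := fun h2 => hT (by rw [hdT, ← hc, h2, map_zero, mul_zero])
    refine ⟨Polynomial.C c⁻¹ * q₁, ?_⟩
    rw [Polynomial.coe_mul, ← h1, ← hc, ← mul_assoc, ← Polynomial.coe_mul, ← map_mul,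
      inv_mul_cancel₀ hc0, map_one, Polynomial.coe_one, one_mul]
  · exfalso
    obtain ⟨z, hz⟩ := IsAlgClosed.exists_aeval_eq_zero ℂ T₁
      (fun h2 => by rw [Polynomial.natDegree_eq_zero_iff_degree_le_zero.2 h2.le] at h0; omega)
    have h3 : cval (q₁ : PowerSeries ℚ) z = Polynomial.aeval z T₁ * cval f z := by
      rw [← h1, cval_coe_mul _ hE]
    rw [cval_coe, hz, zero_mul] at h3
    obtain ⟨a, b, hab⟩ := hco
    have h4 := congrArg (Polynomial.aeval z) hab
    simp [hz, h3] at h4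

variable {f : PowerSeries ℚ}

/-- An inhomogeneous equation of order `m`. -/
def HasEquation (f : PowerSeries ℚ) (m : ℕ) : Prop :=
  ∃ (q : ℚ[X]) (A : ℕ → ℚ[X]), A m ≠ 0 ∧ (q : PowerSeries ℚ) +
    ∑ j ∈ range (m + 1), (A j : PowerSeries ℚ) * (PowerSeries.derivative ℚ)^[j] f = 0

theorem exists_hasEquation {N : ℕ} {e : ℕ → ℚ[X]} (he : ∃ j ≤ N, e j ≠ 0)
    (hf : ∑ j ∈ range (N + 1), (e j : PowerSeries ℚ) * (PowerSeries.derivative ℚ)^[j] f = 0) :
    ∃ m, HasEquation f m := by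
  classical
  obtain ⟨j₀, hj₀, hne⟩ := he
  obtain ⟨m, hm, hmax⟩ := Finset.exists_max_image ((range (N + 1)).filter fun j => e j ≠ 0)
    (fun j => j) ⟨j₀, Finset.mem_filter.2 ⟨mem_range.2 (by omega), hne⟩⟩
  rw [Finset.mem_filter, mem_range] at hm
  refine ⟨m, 0, e, hm.2, ?_⟩
  rw [Polynomial.coe_zero, zero_add, ← hf]
  refine Finset.sum_subset (range_subset_range.2 (by omega)) fun j hj hj' => ?_
  rw [mem_range] at hj hj'
  by_contra h
  have := hmax j (Finset.mem_filter.2 ⟨mem_range.2 hj, fun h0 => h (by simp [h0])⟩)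
  omega

theorem independent_of_minimal {m : ℕ} (hmin : ∀ k < m, ¬HasEquation f k) (A₀ : ℚ[X])
    (A : Fin m → ℚ[X]) (h : (A₀ : PowerSeries ℚ) +
      ∑ i : Fin m, (A i : PowerSeries ℚ) * (PowerSeries.derivative ℚ)^[i] f = 0) :
    A₀ = 0 ∧ A = 0 := by
  classical
  suffices hA : A = 0 by
    refine ⟨?_, hA⟩
    simpa [hA] using h
  by_contra hA
  obtain ⟨i₀, hi₀⟩ := Function.ne_iff.1 hA
  obtain ⟨k, hk, hmax⟩ := Finset.exists_max_image (univ.filter fun i => A i ≠ 0)
    (fun i => (i : ℕ)) ⟨i₀, Finset.mem_filter.2 ⟨mem_univ _, hi₀⟩⟩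
  obtain ⟨B, hB⟩ : ∃ B : ℕ → ℚ[X], B = fun j => if h : j < m then A ⟨j, h⟩ else 0 := ⟨_, rfl⟩
  have hBv : ∀ i : Fin m, B i = A i := fun i => by simp [hB]
  refine hmin k k.2 ⟨A₀, B, by rw [hBv]; exact (Finset.mem_filter.1 hk).2, ?_⟩
  rw [Finset.sum_subset (range_subset_range.2 k.2 : range ((k : ℕ) + 1) ⊆ range m)
      fun j hj hj' => ?_,
    ← Fin.sum_univ_eq_sum_range fun j =>
      (B j : PowerSeries ℚ) * (PowerSeries.derivative ℚ)^[j] f]
  · simpa only [hBv] using h
  · rw [mem_range] at hj hj'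
    rw [show B j = A ⟨j, hj⟩ from hBv ⟨j, hj⟩]
    by_contra h'
    have := hmax ⟨j, hj⟩ (Finset.mem_filter.2 ⟨mem_univ _, fun h0 => h' (by simp [h0])⟩)
    simp at this
    omega

theorem isEFunction_iterate (hE : IsEFunction f) :
    ∀ j : ℕ, IsEFunction ((PowerSeries.derivative ℚ)^[j] f)
  | 0 => hE
  | j + 1 => by
    rw [Function.iterate_succ_apply']
    exact (isEFunction_iterate hE j).derivative

theorem iteratedDeriv_cval (hE : IsEFunction f) :
    ∀ j : ℕ, iteratedDeriv j (cval f) = cval ((PowerSeries.derivative ℚ)^[j] f)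
  | 0 => iteratedDeriv_zero
  | j + 1 => by
    rw [iteratedDeriv_succ, iteratedDeriv_cval hE j, Function.iterate_succ_apply']
    exact funext fun z => ((isEFunction_iterate hE j).expGrowth.chasDerivAt z).deriv

/-- **The values of the derivatives are independent outside a finite set.** -/
theorem exists_independent_values (hE : IsEFunction f) {N : ℕ} {e : ℕ → ℚ[X]}
    (he : ∃ j ≤ N, e j ≠ 0)
    (hf : ∑ j ∈ range (N + 1), (e j : PowerSeries ℚ) * (PowerSeries.derivative ℚ)^[j] f = 0)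
    (hpol : ∀ p : ℚ[X], f ≠ (p : PowerSeries ℚ)) :
    ∃ m, 0 < m ∧ HasEquation f m ∧
      (∀ (A₀ : ℚ[X]) (A : Fin m → ℚ[X]), (A₀ : PowerSeries ℚ) +
        ∑ i : Fin m, (A i : PowerSeries ℚ) * (PowerSeries.derivative ℚ)^[i] f = 0 →
          A₀ = 0 ∧ A = 0) ∧
      ∃ S : Finset ℂ, ∀ α : ℂ, IsAlgebraic ℚ α → α ∉ S → ∀ (b₀ : ℂ) (b : Fin m → ℂ),
        IsAlgebraic ℚ b₀ → (∀ i, IsAlgebraic ℚ (b i)) →
          b₀ + ∑ i : Fin m, b i * iteratedDeriv i (cval f) α = 0 → b₀ = 0 ∧ b = 0 := by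
  classical
  obtain ⟨m, hm, hmin⟩ : ∃ m, HasEquation f m ∧ ∀ k < m, ¬HasEquation f k :=
    ⟨_, Nat.find_spec (exists_hasEquation he hf), fun k hk => Nat.find_min _ hk⟩
  have hind := independent_of_minimal hmin
  obtain ⟨q, A, hA, heq⟩ := hm
  have hm0 : 0 < m := by
    by_contra h0
    obtain rfl : m = 0 := by omega
    rw [Finset.sum_range_one, Function.iterate_zero_apply] at heq
    obtain ⟨p, hp⟩ := exists_coe_of_mul_eq hE (q := -q) hA
      (by rw [Polynomial.coe_neg]; exact eq_neg_of_add_eq_zero_right heq)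
    exact hpol p hp
  refine ⟨m, hm0, ⟨q, A, hA, heq⟩, hind,
    insert 0 ((A m).map (algebraMap ℚ ℂ)).roots.toFinset, fun α hα hαS b₀ b hb₀ hb h => ?_⟩
  rw [Finset.mem_insert, not_or, Multiset.mem_toFinset,
    Polynomial.mem_roots (Polynomial.map_ne_zero hA), Polynomial.IsRoot.def, Polynomial.eval_map,
    ← Polynomial.aeval_def] at hαS
  simp only [iteratedDeriv_cval hE] at h
  obtain ⟨Q, hQ⟩ : ∃ Q : Matrix (Fin m) (Fin m) ℚ[X], Q = Matrix.of fun (i j : Fin m) =>
      if (i : ℕ) + 1 < m then (if (j : ℕ) = i + 1 then A m else 0) else -A j := ⟨_, rfl⟩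
  refine FA.BeukersTheorem.values_linearIndependent_one
    (fun i : Fin m => isEFunction_iterate hE i)
    (q := fun i : Fin m => if (i : ℕ) + 1 < m then 0 else -q) (Q := Q) (fun i => ?_) hind hα hαS.1
    hαS.2 hb₀ hb h
  rw [← Function.iterate_succ_apply' (f := PowerSeries.derivative ℚ)]
  rcases Nat.lt_or_ge ((i : ℕ) + 1) m with hi | hi
  · rw [if_pos hi, Polynomial.coe_zero, zero_add, Finset.sum_eq_single ⟨(i : ℕ) + 1, hi⟩]
    · simp [hQ, hi]
    · intro j _ hj
      rw [hQ, Matrix.of_apply, if_pos hi, if_neg fun h0 => hj (Fin.ext h0), Polynomial.coe_zero,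
        zero_mul]
    · exact fun h0 => absurd (mem_univ _) h0
  · have him : (i : ℕ) + 1 = m := by omega
    rw [if_neg (by omega), Finset.sum_range_succ, ← Fin.sum_univ_eq_sum_range fun j =>
      (A j : PowerSeries ℚ) * (PowerSeries.derivative ℚ)^[j] f] at *
    simp only [hQ, Matrix.of_apply, him, lt_irrefl, if_false, Polynomial.coe_neg,
      neg_mul, Finset.sum_neg_distrib, Nat.succ_eq_add_one]
    linear_combination heq

/-- **The exceptional set is finite.** -/
theorem exceptional_finite (hE : IsEFunction f) {N : ℕ} {e : ℕ → ℚ[X]} (he : ∃ j ≤ N, e j ≠ 0)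
    (hf : ∑ j ∈ range (N + 1), (e j : PowerSeries ℚ) * (PowerSeries.derivative ℚ)^[j] f = 0)
    (hpol : ∀ p : ℚ[X], f ≠ (p : PowerSeries ℚ)) :
    {α : ℂ | IsAlgebraic ℚ α ∧ IsAlgebraic ℚ (cval f α)}.Finite := by
  classical
  obtain ⟨m, hm, -, -, S, hS⟩ := exists_independent_values hE he hf hpol
  refine S.finite_toSet.subset fun α ⟨hα, hv⟩ => ?_
  by_contra hαS
  obtain ⟨-, h⟩ := hS α hα hαS (-cval f α) (Pi.single ⟨0, hm⟩ 1) hv.neg (fun i => by
    rw [Pi.single_apply]
    split_ifs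
    · exact isAlgebraic_one
    · exact isAlgebraic_zero)
    (by simp [Pi.single_apply])
  simpa using congrFun h ⟨0, hm⟩

end FA.ExceptionalValues
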